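/-
Programme TW (S56), brick B5-LG (local Galois toolkit), file 1 (helper1): the BRIDGE between the
norm of `K̄ = PadicAlgCl p` and the abstract model of local fields of `PT/LOC` (`Interface12`:
`intRing`, `mI`, `resF`, `redHom`, `IsFrob`, ...), for finite intermediate fields
`E : IntermediateField ℚ_[p] K̄`.

* `snorm_eq_norm`, `mem_intRing_iff_norm`, `mem_mI_iff_norm` : the ring of integers of `E` is the unit
  ball, its maximal ideal the open unit ball;
* `norm_map` : `G_p` acts by isometries;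
* `normal_of_isNormalField`, `isGalois_of_isNormalField`, `res` (restriction `G_p → Gal(E/ℚ_p)`),
  `res_apply`, `res_surjective`;
* `IsInertialOn E g` (trivial action on the residue field of `E`), `redHom_res_eq_one_iff`;
* `exists_teichmuller` : a root of unity `ζ ∈ E` of order prime to `p` such that every integer of
  `E` is congruent to `0` or to a power of `ζ`.
-/
import Mathlib
import Fermat.Agent.TW.B5.IfaceLG
import Fermat.Agent.PT.LOC.Unram11
import Fermat.Agent.PT.LOC.Teichmuller14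

set_option autoImplicit false
set_option linter.unusedSectionVars false

namespace Fermat.Agent.TW.B5.LG1.Bridge

open Fermat.Agent.TW.B5.Iface Fermat.Agent.TW.B5.IfaceLG
open scoped Fermat.Agent.PT.LOC.Interface12
open Fermat.Agent.PT.LOC.Interface12 Fermat.Agent.PT.LOC.Structure14
  Fermat.Agent.PT.LOC.StructureNorm14 Fermat.Agent.PT.LOC.Unram11

noncomputable section

variable (p : ℕ) [Fact p.Prime]

/-! ### Norms -/

/-- `G_p` acts on `K̄` by isometries. -/
theorem norm_map (τ : Gp p) (x : Kbar p) : ‖τ x‖ = ‖x‖ := by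
  have h := nnnorm_padicAlgCl_algEquiv p τ x
  exact congrArg NNReal.toReal h

theorem norm_map_sub (τ : Gp p) (x y : Kbar p) : ‖τ x - τ y‖ = ‖x - y‖ := by
  rw [← map_sub, norm_map]

/-- The ultrametric inequality in `K̄`. -/
theorem norm_add_le_max' (x y : Kbar p) : ‖x + y‖ ≤ max ‖x‖ ‖y‖ :=
  PadicAlgCl.isNonarchimedean p x y

theorem norm_sub_le_max' (x y : Kbar p) : ‖x - y‖ ≤ max ‖x‖ ‖y‖ := by
  have := norm_add_le_max' p x (-y)
  rwa [norm_neg, ← sub_eq_add_neg] at this

theorem norm_sub_lt_of_lt {x y z : Kbar p} {c : ℝ} (h1 : ‖x - y‖ < c) (h2 : ‖y - z‖ < c) :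
    ‖x - z‖ < c := by
  have h : x - z = (x - y) + (y - z) := by ring
  rw [h]
  exact lt_of_le_of_lt (norm_add_le_max' p _ _) (max_lt h1 h2)

section Norm

variable (E : IntermediateField ℚ_[p] (Kbar p)) [FiniteDimensional ℚ_[p] E]

/-- The spectral norm of `E` is the restriction of the norm of `K̄`. -/
theorem snorm_eq_norm (x : E) : snorm p E x = ‖(x : Kbar p)‖ := by
  rw [snorm, spectralNorm.eq_of_tower (L := Kbar p) x]
  rfl

theorem mem_intRing_iff_norm (x : E) : x ∈ intRing p E ↔ ‖(x : Kbar p)‖ ≤ 1 := by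
  rw [mem_intRing_iff, ← snorm_eq_norm]

theorem mem_mI_iff_norm (x : intRing p E) : x ∈ mI p E ↔ ‖((x : E) : Kbar p)‖ < 1 := by
  rw [mem_maximalIdeal_iff_snorm, snorm_eq_norm]

end Norm

/-! ### Normal fields and restriction -/

/-- `g` acts trivially on the residue field of `E`. -/
def IsInertialOn (E : IntermediateField ℚ_[p] (Kbar p)) (g : Gp p) : Prop :=
  ∀ x ∈ E, ‖x‖ ≤ 1 → ‖g x - x‖ < 1

theorem IsInertial.isInertialOn {τ : Gp p} (h : IsInertial p τ)
    (E : IntermediateField ℚ_[p] (Kbar p)) : IsInertialOn p E τ := fun x _ hx => h x hx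

theorem normal_of_isNormalField {E : IntermediateField ℚ_[p] (Kbar p)} (hE : IsNormalField p E) :
    Normal ℚ_[p] E := by
  rw [IntermediateField.normal_iff_forall_map_le']
  intro σ x hx
  obtain ⟨y, hy, rfl⟩ := hx
  exact hE σ y hy

theorem isGalois_of_isNormalField {E : IntermediateField ℚ_[p] (Kbar p)}
    (hE : IsNormalField p E) : IsGalois ℚ_[p] E :=
  { to_normal := normal_of_isNormalField p hE }

theorem isNormalField_of_normal (E : IntermediateField ℚ_[p] (Kbar p)) [Normal ℚ_[p] E] :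
    IsNormalField p E := by
  intro τ x hx
  have h := (IntermediateField.normal_iff_forall_map_le'.mp (inferInstance : Normal ℚ_[p] E)) τ
  exact h ⟨x, hx, rfl⟩

section Res

variable (E : IntermediateField ℚ_[p] (Kbar p)) [Normal ℚ_[p] E]

/-- Restriction `G_p → Gal(E/ℚ_p)`. -/
def res : Gp p →* (E ≃ₐ[ℚ_[p]] E) := AlgEquiv.restrictNormalHom E

theorem res_apply (g : Gp p) (x : E) : ((res p E g x : E) : Kbar p) = g (x : Kbar p) :=
  AlgEquiv.restrictNormal_commutes g E x

theorem res_surjective : Function.Surjective (res p E) :=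
  AlgEquiv.restrictNormalHom_surjective (Kbar p)

end Res

section Red

variable (E : IntermediateField ℚ_[p] (Kbar p)) [FiniteDimensional ℚ_[p] E] [IsGalois ℚ_[p] E]

/-- The reduction of `g|_E` is trivial iff `g` acts trivially on the residue field of `E`. -/
theorem redHom_res_eq_one_iff (g : Gp p) :
    redHom p ℚ_[p] E (res p E g) = 1 ↔ IsInertialOn p E g := by
  constructor
  · intro h x hx hx1
    have hxi : (⟨x, hx⟩ : E) ∈ intRing p E := (mem_intRing_iff_norm p E _).2 hx1
    have h1 := DFunLike.congr_fun h (Ideal.Quotient.mk (mI p E) ⟨⟨x, hx⟩, hxi⟩)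
    rw [redHom_mk, AlgEquiv.one_apply] at h1
    have h2 := (mem_mI_iff_norm p E _).1 ((Ideal.Quotient.eq).1 h1)
    have h3 : ((((res p E g) • (⟨⟨x, hx⟩, hxi⟩ : intRing p E) - ⟨⟨x, hx⟩, hxi⟩ : intRing p E) : E)
        : Kbar p) = g x - x := by
      rw [Subalgebra.coe_sub, coe_smul_intRing]
      push_cast
      rw [res_apply]
    rw [h3] at h2
    exact h2
  · intro h
    ext y
    obtain ⟨x, rfl⟩ := Ideal.Quotient.mk_surjective y
    rw [redHom_mk, AlgEquiv.one_apply]
    apply (Ideal.Quotient.eq).2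
    rw [mem_mI_iff_norm]
    have hx1 : ‖((x : E) : Kbar p)‖ ≤ 1 := (mem_intRing_iff_norm p E _).1 x.2
    have h3 : ((((res p E g) • x - x : intRing p E) : E) : Kbar p)
        = g ((x : E) : Kbar p) - ((x : E) : Kbar p) := by
      rw [Subalgebra.coe_sub, coe_smul_intRing]
      push_cast
      rw [res_apply]
    rw [h3]
    exact h _ (x : E).2 hx1

end Red

/-! ### The residue field of `ℚ_p`, Frobenius elements -/

/-- The residue field of `ℚ_p` has `p` elements. -/
theorem resCard_Qp : resCard p ℚ_[p] = p := by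
  have hp : p.Prime := Fact.out
  apply le_antisymm
  · -- the map `ZMod p → resF`, `a ↦ a.val`, is surjective
    rw [← card_resF]
    have hsurj : Function.Surjective
        (fun a : ZMod p => ((a.val : ℕ) : resF p ℚ_[p])) := by
      intro y
      obtain ⟨x, rfl⟩ := Ideal.Quotient.mk_surjective y
      have hx1 : ‖((x : ℚ_[p]))‖ ≤ 1 := by
        have h := (mem_intRing_iff p ℚ_[p] (x : ℚ_[p])).1 x.2
        have h2 : spectralNorm ℚ_[p] ℚ_[p] (x : ℚ_[p]) = ‖(x : ℚ_[p])‖ :=
          spectralNorm_extends (K := ℚ_[p]) (L := ℚ_[p]) (x : ℚ_[p])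
        rwa [h2] at h
      set z : ℤ_[p] := ⟨(x : ℚ_[p]), hx1⟩ with hz
      obtain ⟨n, hn, hzn⟩ := PadicInt.exists_mem_range (p := p) z
      refine ⟨(n : ZMod p), ?_⟩
      have hval : ((n : ZMod p)).val = n := ZMod.val_natCast_of_lt hn
      show (((n : ZMod p).val : ℕ) : resF p ℚ_[p]) = _
      rw [hval]
      have hcast : ((n : ℕ) : resF p ℚ_[p]) = Ideal.Quotient.mk (mI p ℚ_[p]) (n : intRing p ℚ_[p]) := by
        rw [map_natCast]
      rw [hcast]
      symm
      apply (Ideal.Quotient.eq).2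
      rw [mem_maximalIdeal_iff_snorm]
      have h3 : ((x - (n : intRing p ℚ_[p]) : intRing p ℚ_[p]) : ℚ_[p]) = ((z - n : ℤ_[p]) : ℚ_[p]) := by
        push_cast
        rfl
      rw [h3]
      have h4 : snorm p ℚ_[p] ((z - n : ℤ_[p]) : ℚ_[p]) = ‖((z - n : ℤ_[p]) : ℚ_[p])‖ :=
        spectralNorm_extends (K := ℚ_[p]) (L := ℚ_[p]) _
      rw [h4]
      have h5 := PadicInt.mem_nonunits.mp
        ((IsLocalRing.mem_maximalIdeal _).mp hzn)
      exact h5
    have := Nat.card_le_card_of_surjective _ hsurj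
    rwa [Nat.card_zmod] at this
  · obtain ⟨k, hk, hkq⟩ := Fermat.Agent.PT.LOC.StructureTower27.exists_resCard_eq_pow p ℚ_[p]
    rw [hkq]
    calc p = p ^ 1 := (pow_one p).symm
      _ ≤ p ^ k := Nat.pow_le_pow_right hp.pos hk

end

end Fermat.Agent.TW.B5.LG1.Bridge
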