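/-
Programme TW (S56), brick B5-LG (local Galois toolkit), file 2 (helper1): Teichmüller representatives
in a finite intermediate field `E` of `K̄/ℚ_p`, in the language of the norm of `K̄`.

* `exists_teichmuller` : there is a root of unity `ζ ∈ E` of order prime to `p` such that every
  `x ∈ E` with `‖x‖ ≤ 1` satisfies `‖x‖ < 1` or `‖x - ζ ^ i‖ < 1` for some `i`.
-/
import Mathlib
import Fermat.Agent.TW.B5.LG1.Bridge

set_option autoImplicit false
set_option linter.unusedSectionVars false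

namespace Fermat.Agent.TW.B5.LG1.Teich

open Fermat.Agent.TW.B5.Iface Fermat.Agent.TW.B5.IfaceLG Fermat.Agent.TW.B5.LG1.Bridge
open scoped Fermat.Agent.PT.LOC.Interface12
open Fermat.Agent.PT.LOC.Interface12 Fermat.Agent.PT.LOC.Structure14
  Fermat.Agent.PT.LOC.StructureNorm14 Fermat.Agent.PT.LOC.Unram11
  Fermat.Agent.PT.LOC.StructureTower27 Fermat.Agent.PT.LOC.Teichmuller14

noncomputable section

variable (p : ℕ) [Fact p.Prime]

/-- **Teichmüller representatives** in a finite extension `E` of `ℚ_p` inside `K̄`. -/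
theorem exists_teichmuller (E : IntermediateField ℚ_[p] (Kbar p)) [FiniteDimensional ℚ_[p] E] :
    ∃ ζ : Kbar p, ζ ∈ E ∧ ∃ m : ℕ, ¬ p ∣ m ∧ ζ ^ m = 1 ∧
      ∀ x ∈ E, ‖x‖ ≤ 1 → ‖x‖ < 1 ∨ ∃ i : ℕ, ‖x - ζ ^ i‖ < 1 := by
  have hp : p.Prime := Fact.out
  obtain ⟨ζ, hζ, hζres⟩ := exists_isPrimitiveRoot_and_residue p E
  have hQ : 1 < resCard p E := one_lt_resCard p E
  obtain ⟨k, hk, hQk⟩ := exists_resCard_eq_pow p E
  refine ⟨((ζ : E) : Kbar p), (ζ : E).2, resCard p E - 1, ?_, ?_, ?_⟩
  · intro hdvd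
    have h1 : p ∣ resCard p E := by rw [hQk]; exact dvd_pow_self p hk.ne'
    have h2 : p ∣ resCard p E - (resCard p E - 1) := Nat.dvd_sub h1 hdvd
    have h3 : resCard p E - (resCard p E - 1) = 1 := by omega
    rw [h3] at h2
    exact hp.one_lt.ne' (Nat.dvd_one.mp h2)
  · have h1 : ζ ^ (resCard p E - 1) = 1 := hζ.pow_eq_one
    have h2 : ((ζ ^ (resCard p E - 1) : intRing p E) : E) = 1 := by rw [h1]; rfl
    have h3 : (((ζ ^ (resCard p E - 1) : intRing p E) : E) : Kbar p) = 1 := by rw [h2]; rfl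
    rw [← h3]
    push_cast
    rfl
  · intro x hx hx1
    have hxi : (⟨x, hx⟩ : E) ∈ intRing p E := (mem_intRing_iff_norm p E _).2 hx1
    set y : intRing p E := ⟨⟨x, hx⟩, hxi⟩ with hy
    by_cases h0 : IsLocalRing.residue (intRing p E) y = 0
    · left
      rw [IsLocalRing.residue_eq_zero_iff] at h0
      exact (mem_mI_iff_norm p E y).1 h0
    · right
      have hpow : (IsLocalRing.residue (intRing p E) y) ^ (resCard p E - 1) = 1 := by
        have := Fintype.ofFinite (resField p E)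
        have h1 := FiniteField.pow_card_sub_one_eq_one (IsLocalRing.residue (intRing p E) y) h0
        rwa [← Nat.card_eq_fintype_card, card_resField] at h1
      have : NeZero (resCard p E - 1) := ⟨by omega⟩
      obtain ⟨i, -, hi⟩ := hζres.eq_pow_of_pow_eq_one hpow
      refine ⟨i, ?_⟩
      have h2 : IsLocalRing.residue (intRing p E) (y - ζ ^ i) = 0 := by
        rw [map_sub, map_pow, hi, sub_self]
      rw [IsLocalRing.residue_eq_zero_iff] at h2
      have h3 := (mem_mI_iff_norm p E (y - ζ ^ i)).1 h2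
      have h4 : (((y - ζ ^ i : intRing p E) : E) : Kbar p) = x - ((ζ : E) : Kbar p) ^ i := by
        push_cast
        rfl
      rwa [h4] at h3

end

end Fermat.Agent.TW.B5.LG1.Teich
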