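/-
Programme TW (S56), brick B5-LG (local Galois toolkit), file 3 (helper1): the maximal unramified
extension `K_ur = ℚ_p(μ_{p'}) ⊆ K̄` and the inertia group as `Gal(K̄/K_ur)`.

* `rootsPrime`, `Kur`; `Fm m = ℚ_p(μ_m)`;
* `mem_fixingSubgroup_Kur_iff : τ ∈ (Kur p).fixingSubgroup ↔ IsInertial p τ`;
* `mem_Kur_of_fixed` : an element fixed by inertia lies in `K_ur` (infinite Galois correspondence);
* `exists_mem_Fm_of_mem_Kur` : an element of `K_ur` lies in some `ℚ_p(μ_m)`, `p ∤ m`;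
* `fixes_of_inertialOn_unram` : RIGIDITY, an element of `G_p` acting trivially on the residue field
  of a finite unramified `N` fixes `N` pointwise.
-/
import Mathlib
import Fermat.Agent.TW.B5.LG1.Bridge
import Fermat.Agent.TW.B5.LG83B
import Fermat.Agent.TW.B5.LG83U

set_option autoImplicit false
set_option linter.unusedSectionVars false
set_option linter.dupNamespace false

namespace Fermat.Agent.TW.B5.LG1.Kur

open Fermat.Agent.TW.B5.Iface Fermat.Agent.TW.B5.IfaceLG Fermat.Agent.TW.B5.LG1.Bridge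
open Polynomial IntermediateField

noncomputable section

variable (p : ℕ) [Fact p.Prime]

local instance isAlgClosurePadicLG1 : IsAlgClosure ℚ_[p] (PadicAlgCl p) :=
  ⟨inferInstance, inferInstance⟩

local instance isGaloisPadicLG1 : IsGalois ℚ_[p] (PadicAlgCl p) :=
  IsAlgClosure.isGalois ℚ_[p] (PadicAlgCl p)

/-- The roots of unity of order prime to `p` in `K̄`. -/
def rootsPrime : Set (Kbar p) := {ζ | ∃ n : ℕ, ¬ p ∣ n ∧ ζ ^ n = 1}

/-- The maximal unramified extension of `ℚ_p` inside `K̄`. -/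
def Kur : IntermediateField ℚ_[p] (Kbar p) := adjoin ℚ_[p] (rootsPrime p)

/-- The field of elements fixed by `τ`. -/
def fixedBy (τ : Gp p) : IntermediateField ℚ_[p] (Kbar p) where
  carrier := {x | τ x = x}
  mul_mem' := fun {a b} ha hb => by
    show τ (a * b) = a * b
    rw [map_mul, ha, hb]
  one_mem' := map_one τ
  add_mem' := fun {a b} ha hb => by
    show τ (a + b) = a + b
    rw [map_add, ha, hb]
  zero_mem' := map_zero τ
  algebraMap_mem' := fun r => τ.commutes r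
  inv_mem' := fun a ha => by
    show τ a⁻¹ = a⁻¹
    rw [map_inv₀, ha]

theorem mem_fixedBy (τ : Gp p) (x : Kbar p) : x ∈ fixedBy p τ ↔ τ x = x := Iff.rfl

/-- **Inertia is `Gal(K̄/K_ur)`.** -/
theorem mem_fixingSubgroup_Kur_iff (τ : Gp p) : τ ∈ (Kur p).fixingSubgroup ↔ IsInertial p τ := by
  rw [IntermediateField.mem_fixingSubgroup_iff]
  constructor
  · intro h
    exact LG83B.isInertial_of_fixes_roots p
      (fun m ζ hm hζ => h ζ (subset_adjoin ℚ_[p] _ ⟨m, hm, hζ⟩))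
  · intro hτ x hx
    have hle : Kur p ≤ fixedBy p τ := by
      rw [Kur, adjoin_le_iff]
      rintro ζ ⟨n, hn, hζ⟩
      exact LG83B.inertial_fixes_root p hτ hn hζ
    exact hle hx

/-- An element of `K̄` fixed by all inertial elements lies in `K_ur`. -/
theorem mem_Kur_of_fixed {x : Kbar p} (hx : ∀ τ : Gp p, IsInertial p τ → τ x = x) :
    x ∈ Kur p := by
  rw [← InfiniteGalois.fixedField_fixingSubgroup (Kur p), IntermediateField.mem_fixedField_iff]
  intro τ hτ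
  exact hx τ ((mem_fixingSubgroup_Kur_iff p τ).1 hτ)

/-- `ℚ_p(μ_m)`. -/
def Fm (m : ℕ) : IntermediateField ℚ_[p] (Kbar p) :=
  adjoin ℚ_[p] ((X ^ m - 1 : ℚ_[p][X]).rootSet (Kbar p))

theorem X_pow_sub_one_ne_zero' {m : ℕ} (hm : m ≠ 0) : (X ^ m - 1 : ℚ_[p][X]) ≠ 0 := by
  have := X_pow_sub_C_ne_zero (Nat.pos_of_ne_zero hm) (1 : ℚ_[p])
  simpa using this

theorem mem_rootSet_iff {m : ℕ} (hm : m ≠ 0) (ζ : Kbar p) :
    ζ ∈ (X ^ m - 1 : ℚ_[p][X]).rootSet (Kbar p) ↔ ζ ^ m = 1 := by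
  rw [mem_rootSet]
  constructor
  · rintro ⟨-, h⟩
    simpa [sub_eq_zero] using h
  · intro h
    refine ⟨X_pow_sub_one_ne_zero' p hm, ?_⟩
    simp [h]

theorem mem_Fm_of_pow_eq_one {m : ℕ} (hm : m ≠ 0) {ζ : Kbar p} (hζ : ζ ^ m = 1) :
    ζ ∈ Fm p m :=
  subset_adjoin ℚ_[p] _ ((mem_rootSet_iff p hm ζ).2 hζ)

/-- Every element of `K_ur` lies in some `ℚ_p(μ_m)` with `p ∤ m`. -/
theorem exists_mem_Fm_of_mem_Kur {x : Kbar p} (hx : x ∈ Kur p) :
    ∃ m : ℕ, ¬ p ∣ m ∧ x ∈ Fm p m := by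
  classical
  have hp : p.Prime := Fact.out
  obtain ⟨T, hT, hxT⟩ := exists_finset_of_mem_adjoin hx
  have hT' : ∀ ζ ∈ T, ∃ n : ℕ, ¬ p ∣ n ∧ ζ ^ n = 1 := fun ζ hζ => hT (Finset.mem_coe.2 hζ)
  choose! n hn using hT'
  refine ⟨∏ ζ ∈ T, n ζ, ?_, ?_⟩
  · rw [Prime.dvd_finsetProd_iff hp.prime]
    rintro ⟨ζ, hζT, hdvd⟩
    exact (hn ζ hζT).1 hdvd
  · have hm0 : ∏ ζ ∈ T, n ζ ≠ 0 := by
      rw [Finset.prod_ne_zero_iff]
      intro ζ hζT h0
      exact (hn ζ hζT).1 (h0 ▸ dvd_zero p)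
    have hle : adjoin ℚ_[p] (T : Set (Kbar p)) ≤ Fm p (∏ ζ ∈ T, n ζ) := by
      rw [adjoin_le_iff]
      intro ζ hζT
      apply mem_Fm_of_pow_eq_one p hm0
      obtain ⟨k, hk⟩ := Finset.dvd_prod_of_mem n (Finset.mem_coe.1 hζT)
      rw [hk, pow_mul, (hn ζ (Finset.mem_coe.1 hζT)).2, one_pow]
    exact hle hxT

/-! ### Rigidity -/

/-- **Rigidity.** If `g` acts trivially on the residue field of a finite unramified `N`, then `g`
fixes `N` pointwise. -/
theorem fixes_of_inertialOn_unram (N : IntermediateField ℚ_[p] (Kbar p))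
    [FiniteDimensional ℚ_[p] N] (hur : IsUnramifiedField p N) (g : Gp p)
    (hg : IsInertialOn p N g) : ∀ x ∈ N, g x = x := by
  obtain ⟨m, hm, hT⟩ := LG83B.exists_teichmuller p N
  have hm0 : m ≠ 0 := fun h => hm (h ▸ dvd_zero p)
  have hp1 : (1 : ℝ) < p := by exact_mod_cast (Fact.out : p.Prime).one_lt
  have hp0 : (0 : ℝ) < p := by linarith
  have key : ∀ n : ℕ, ∀ x ∈ N, ‖x‖ ≤ 1 → ‖g x - x‖ ≤ ((p : ℝ)⁻¹) ^ n := by
    intro n
    induction n with
    | zero =>
      intro x hx hx1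
      rw [pow_zero]
      exact (hg x hx hx1).le
    | succ n ih =>
      intro x hx hx1
      obtain ⟨c, hcK, hc, hxc⟩ := hT x hx hx1
      have hgc : g c = c := by
        rcases hc with rfl | hc
        · exact map_zero g
        · have h1 : ‖c‖ = 1 := by
            have h2 : ‖c‖ ^ m = 1 := by rw [← norm_pow, hc, norm_one]
            exact (pow_eq_one_iff_of_nonneg (norm_nonneg _) hm0).1 h2
          refine LG83B.eq_of_norm_sub_lt_one p hm ?_ hc (hg c hcK h1.le)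
          rw [← map_pow, hc, map_one]
      have hy := LG83U.norm_div_p_le_one p hur (N.sub_mem hx hcK) hxc
      have hyK : (x - c) / (p : Kbar p) ∈ N := N.div_mem (N.sub_mem hx hcK) (_root_.natCast_mem N p)
      have h1 := ih _ hyK hy
      have h2 : g x - x = (p : Kbar p) * (g ((x - c) / (p : Kbar p)) - (x - c) / (p : Kbar p)) := by
        rw [map_div₀, map_sub, hgc, map_natCast]
        field_simp [LG83U.p_ne_zero p]
        ring
      rw [h2, norm_mul, LG83U.norm_p, pow_succ, mul_comm]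
      exact mul_le_mul_of_nonneg_right h1 (inv_nonneg.2 hp0.le)
  have hint : ∀ x ∈ N, ‖x‖ ≤ 1 → g x = x := by
    intro x hx hx1
    by_contra hne
    have hpos : 0 < ‖g x - x‖ := norm_pos_iff.2 (sub_ne_zero.2 hne)
    obtain ⟨n, hn⟩ := exists_pow_lt_of_lt_one hpos (inv_lt_one_of_one_lt₀ hp1)
    exact absurd (key n x hx hx1) (not_le.2 hn)
  intro x hx
  by_cases hx1 : ‖x‖ ≤ 1
  · exact hint x hx hx1
  · have hx1 := not_le.1 hx1
    have h1 : ‖x⁻¹‖ ≤ 1 := by
      rw [norm_inv]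
      exact inv_le_one_of_one_le₀ hx1.le
    have h2 := hint x⁻¹ (N.inv_mem hx) h1
    rw [map_inv₀] at h2
    exact inv_injective h2

end

end Fermat.Agent.TW.B5.LG1.Kur
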