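/-
Programme TW (S56), brick B5-LG (local Galois toolkit), file 4 (helper1): the cyclotomic fields
`ℚ_p(μ_m)`, `p ∤ m`, are finite, normal and unramified (norms in `p^ℤ`).
-/
import Mathlib
import Fermat.Agent.TW.B5.LG1.Kur

set_option autoImplicit false
set_option linter.unusedSectionVars false

namespace Fermat.Agent.TW.B5.LG1.FmUnram

open Fermat.Agent.TW.B5.Iface Fermat.Agent.TW.B5.IfaceLG Fermat.Agent.TW.B5.LG1.Bridge
  Fermat.Agent.TW.B5.LG1.Kur
open scoped Fermat.Agent.PT.LOC.Interface12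
open Fermat.Agent.PT.LOC.Interface12 Fermat.Agent.PT.LOC.Structure14
  Fermat.Agent.PT.LOC.StructureNorm14 Fermat.Agent.PT.LOC.Unram11
open Polynomial IntermediateField

noncomputable section

variable (p : ℕ) [Fact p.Prime]

instance isSplittingField_Fm (m : ℕ) :
    (X ^ m - 1 : ℚ_[p][X]).IsSplittingField ℚ_[p] (Fm p m) :=
  adjoin_rootSet_isSplittingField (IsAlgClosed.splits _)

instance finiteDimensional_Fm (m : ℕ) : FiniteDimensional ℚ_[p] (Fm p m) :=
  IsSplittingField.finiteDimensional (Fm p m) (X ^ m - 1 : ℚ_[p][X])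

instance normal_Fm (m : ℕ) : Normal ℚ_[p] (Fm p m) :=
  Normal.of_isSplittingField (X ^ m - 1 : ℚ_[p][X])

/-- `ℚ_p(μ_m)/ℚ_p` is unramified in the sense of `PT/LOC`. -/
theorem isUnramified_Fm {m : ℕ} (hm : ¬ p ∣ m) : IsUnramified p ℚ_[p] (Fm p m) := by
  have hm0 : m ≠ 0 := fun h => hm (h ▸ dvd_zero p)
  have : IsGalois ℚ_[p] (Fm p m) := ⟨⟩
  have hgen : Algebra.adjoin ℚ_[p] ((X ^ m - 1 : ℚ_[p][X]).rootSet (Fm p m)) = ⊤ :=
    IsSplittingField.adjoin_rootSet (Fm p m) (X ^ m - 1 : ℚ_[p][X])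
  have hinj := redHom_injective_of_adjoin p ℚ_[p] (Fm p m) hm
    ((X ^ m - 1 : ℚ_[p][X]).rootSet (Fm p m)) (fun ζ hζ => by
      rw [mem_rootSet] at hζ
      simpa [sub_eq_zero] using hζ.2) hgen
  exact isUnramified_of_redHom_injective p ℚ_[p] (Fm p m) hinj

/-- In a finite extension `N ⊆ K̄` which is unramified in the sense of `PT/LOC`, all norms are
powers of `p`. -/
theorem isUnramifiedField_of_isUnramified (N : IntermediateField ℚ_[p] (Kbar p))
    [FiniteDimensional ℚ_[p] N] (hur : IsUnramified p ℚ_[p] N) : IsUnramifiedField p N := by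
  intro x hx hx0
  obtain ⟨π, hπ⟩ := exists_isUniformizer p ℚ_[p]
  have hπ' := hur π hπ
  have hx0' : (⟨x, hx⟩ : N) ≠ 0 := fun h => hx0 (congrArg Subtype.val h)
  have h1 := snorm_eq_zpow p N (Units.map (algebraMap ℚ_[p] N : ℚ_[p] →* N) π)
    (by simpa using hπ') (Units.mk0 ⟨x, hx⟩ hx0')
  rw [Units.val_mk0, snorm_eq_norm, Units.coe_map, MonoidHom.coe_coe, snorm_algebraMap,
    Padic.norm_eq_zpow_neg_valuation π.ne_zero, ← zpow_mul] at h1
  exact ⟨_, h1⟩

theorem isUnramifiedField_Fm {m : ℕ} (hm : ¬ p ∣ m) : IsUnramifiedField p (Fm p m) :=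
  isUnramifiedField_of_isUnramified p (Fm p m) (isUnramified_Fm p hm)

/-- A subfield of an unramified field is unramified. -/
theorem IsUnramifiedField.mono {N N' : IntermediateField ℚ_[p] (Kbar p)} (h : N ≤ N')
    (hN' : IsUnramifiedField p N') : IsUnramifiedField p N :=
  fun x hx hx0 => hN' x (h hx) hx0

end

end Fermat.Agent.TW.B5.LG1.FmUnram
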