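/-
Programme TW (S56), brick B5-LG (local Galois toolkit), helper65: Frobenius lifts.

* `isFrob_res_iff`  : for `E` finite Galois, `IsFrob p ℚ_[p] E (res p E φ) ↔ IsFrobLiftOn p E φ`;
* `existsFrobLift   : IfaceLG.ExistsFrobLift p`  (LG-U3).
-/
import Mathlib
import Fermat.Agent.TW.B5.LG1.Bridge
import Fermat.Agent.PT.LOC.RootsUnity14

set_option autoImplicit false
set_option linter.unusedSectionVars false

namespace Fermat.Agent.TW.B5.LG1.Unr65

open Fermat.Agent.TW.B5.Iface Fermat.Agent.TW.B5.IfaceLG Fermat.Agent.TW.B5.LG1.Bridge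
open scoped Fermat.Agent.PT.LOC.Interface12
open Fermat.Agent.PT.LOC.Interface12 Fermat.Agent.PT.LOC.Structure14
  Fermat.Agent.PT.LOC.StructureNorm14 Fermat.Agent.PT.LOC.Unram11

noncomputable section

variable (p : ℕ) [Fact p.Prime]

theorem isFrobLiftOn_mono {E E' : IntermediateField ℚ_[p] (Kbar p)} (h : E ≤ E') {φ : Gp p}
    (hφ : IsFrobLiftOn p E' φ) : IsFrobLiftOn p E φ := fun x hx hx1 => hφ x (h hx) hx1

section Frob

variable (E : IntermediateField ℚ_[p] (Kbar p)) [FiniteDimensional ℚ_[p] E] [IsGalois ℚ_[p] E]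

/-- Bridge: abstract Frobenius elements of `Gal(E/ℚ_p)` are the restrictions of Frobenius lifts. -/
theorem isFrob_res_iff (φ : Gp p) : IsFrob p ℚ_[p] E (res p E φ) ↔ IsFrobLiftOn p E φ := by
  rw [Fermat.Agent.PT.LOC.RootsUnity14.isFrob_iff, resCard_Qp]
  constructor
  · intro h x hx hx1
    have hxi : (⟨x, hx⟩ : E) ∈ intRing p E := (mem_intRing_iff_norm p E _).2 hx1
    have h1 := h ⟨x, hx⟩ hxi
    rw [snorm_eq_norm] at h1
    have h3 : (((res p E φ) (⟨x, hx⟩ : E) - (⟨x, hx⟩ : E) ^ p : E) : Kbar p) = φ x - x ^ p := by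
      push_cast
      rw [res_apply]
    rw [h3] at h1
    exact h1
  · intro h x hx
    rw [snorm_eq_norm]
    have hx1 : ‖(x : Kbar p)‖ ≤ 1 := (mem_intRing_iff_norm p E _).1 hx
    have h3 : (((res p E φ) x - x ^ p : E) : Kbar p) = φ (x : Kbar p) - (x : Kbar p) ^ p := by
      push_cast
      rw [res_apply]
    rw [h3]
    exact h _ x.2 hx1

end Frob

/-- **(LG-U3)** Frobenius lifts exist at every finite level. -/
theorem existsFrobLift : ExistsFrobLift p := by
  intro E hfin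
  have : FiniteDimensional ℚ_[p] E := hfin
  let E' : IntermediateField ℚ_[p] (Kbar p) := IntermediateField.normalClosure ℚ_[p] E (Kbar p)
  have hle : E ≤ E' := IntermediateField.le_normalClosure E
  have hfin' : FiniteDimensional ℚ_[p] E' := normalClosure.is_finiteDimensional ℚ_[p] E (Kbar p)
  have hnorm : Normal ℚ_[p] E' := normalClosure.normal ℚ_[p] E (Kbar p)
  have hgal : IsGalois ℚ_[p] E' := { to_normal := hnorm }
  obtain ⟨σ, hσ⟩ := exists_isFrob p ℚ_[p] E'
  obtain ⟨φ, rfl⟩ := res_surjective p E' σ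
  exact ⟨φ, isFrobLiftOn_mono p hle ((isFrob_res_iff p E' φ).1 hσ)⟩

end

end Fermat.Agent.TW.B5.LG1.Unr65
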