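/-
Programme TW (S56), brick B5-LG (local Galois toolkit), helper65: (LG-U4) from (LG-U5).

* `generatedByFrob_of (h5 : InertiaSurjective p) : GeneratedByFrob p`.
-/
import Mathlib
import Fermat.Agent.TW.B5.LG1.Unr65

set_option autoImplicit false
set_option linter.unusedSectionVars false

namespace Fermat.Agent.TW.B5.LG1.GenFrob65

open Fermat.Agent.TW.B5.Iface Fermat.Agent.TW.B5.IfaceLG Fermat.Agent.TW.B5.LG1.Bridge
  Fermat.Agent.TW.B5.LG1.Unr65
open scoped Fermat.Agent.PT.LOC.Interface12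
open Fermat.Agent.PT.LOC.Interface12 Fermat.Agent.PT.LOC.Structure14
  Fermat.Agent.PT.LOC.StructureNorm14 Fermat.Agent.PT.LOC.Unram11

noncomputable section

variable (p : ℕ) [Fact p.Prime]

/-- **(LG-U4)** from (LG-U5): at every finite normal level, `G_p` is generated by inertia and one
Frobenius lift. -/
theorem generatedByFrob_of (h5 : InertiaSurjective p) : GeneratedByFrob p := by
  intro E hfin hE φ hφ g
  have : FiniteDimensional ℚ_[p] E := hfin
  have : IsGalois ℚ_[p] E := isGalois_of_isNormalField p hE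
  have hφ' : redHom p ℚ_[p] E (res p E φ) = resFrob p ℚ_[p] E :=
    (redHom_eq_resFrob_iff_isFrob p ℚ_[p] E _).2 ((isFrob_res_iff p E φ).2 hφ)
  obtain ⟨j, hj⟩ := (FiniteField.bijective_frobeniusAlgEquivOfAlgebraic_pow (resF p ℚ_[p])
    (resF p E)).2 (redHom p ℚ_[p] E (res p E g))
  have hj' : resFrob p ℚ_[p] E ^ j.1 = redHom p ℚ_[p] E (res p E g) := hj
  have h1 : redHom p ℚ_[p] E (res p E ((φ ^ j.1)⁻¹ * g)) = 1 := by
    rw [map_mul, map_mul, map_inv, map_inv, map_pow, map_pow, hφ', ← hj', inv_mul_cancel]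
  have h2 : IsInertialOn p E ((φ ^ j.1)⁻¹ * g) := (redHom_res_eq_one_iff p E _).1 h1
  obtain ⟨τ, hτ, hτE⟩ := h5 E hfin hE _ h2
  refine ⟨j.1, τ, hτ, fun x hx => ?_⟩
  rw [hτE x hx, ← AlgEquiv.mul_apply, mul_inv_cancel_left]

end

end Fermat.Agent.TW.B5.LG1.GenFrob65
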