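/-
Programme TW (S56), brick B5-LG (local Galois toolkit), file 7 (helper1): `K_ur` is unramified and
contains every finite unramified extension; composita with prime-to-`p` cyclotomic fields stay
unramified.

* `isUnramifiedField_Kur : IsUnramifiedField p (Kur p)`;
* `le_Kur_of_isUnramifiedField` : a finite unramified `K` lies in `K_ur`;
* `isUnramifiedField_of_le_Kur`;
* `isUnramifiedField_sup_adjoin_root` : `K₀` finite unramified, `ζ ^ m = 1`, `p ∤ m` ⟹ `K₀(ζ)` is
  unramified.
-/
import Mathlib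
import Fermat.Agent.TW.B5.LG1.FmUnram

set_option autoImplicit false

namespace Fermat.Agent.TW.B5.LG1.KurUnram

open Fermat.Agent.TW.B5.Iface Fermat.Agent.TW.B5.IfaceLG Fermat.Agent.TW.B5.LG1.Kur
  Fermat.Agent.TW.B5.LG1.FmUnram
open IntermediateField

variable (p : ℕ) [Fact p.Prime]

/-- `K_ur` is unramified: all norms are powers of `p`. -/
theorem isUnramifiedField_Kur : IsUnramifiedField p (Kur p) := by
  intro x hx hx0
  obtain ⟨m, hm, hxm⟩ := exists_mem_Fm_of_mem_Kur p hx
  exact isUnramifiedField_Fm p hm x hxm hx0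

theorem isUnramifiedField_of_le_Kur {K : IntermediateField ℚ_[p] (Kbar p)} (h : K ≤ Kur p) :
    IsUnramifiedField p K :=
  IsUnramifiedField.mono p h (isUnramifiedField_Kur p)

/-- A finite unramified extension of `ℚ_p` lies in `K_ur`. -/
theorem le_Kur_of_isUnramifiedField (K : IntermediateField ℚ_[p] (Kbar p))
    (hfd : FiniteDimensional ℚ_[p] K) (hur : IsUnramifiedField p K) : K ≤ Kur p := by
  intro x hx
  exact mem_Kur_of_fixed p (fun τ hτ => LG83U.unramFixedByInertia p K hfd hur τ hτ x hx)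

theorem root_mem_Kur {m : ℕ} (hm : ¬ p ∣ m) {ζ : Kbar p} (hζ : ζ ^ m = 1) : ζ ∈ Kur p :=
  subset_adjoin ℚ_[p] _ ⟨m, hm, hζ⟩

/-- `K₀(ζ)` is unramified if `K₀` is finite unramified and `ζ` is a root of unity of order prime to
`p`. -/
theorem isUnramifiedField_sup_adjoin_root (K₀ : IntermediateField ℚ_[p] (Kbar p))
    (hfd : FiniteDimensional ℚ_[p] K₀) (hur : IsUnramifiedField p K₀) {m : ℕ} (hm : ¬ p ∣ m)
    {ζ : Kbar p} (hζ : ζ ^ m = 1) :
    IsUnramifiedField p (K₀ ⊔ adjoin ℚ_[p] {ζ}) := by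
  apply isUnramifiedField_of_le_Kur
  apply sup_le (le_Kur_of_isUnramifiedField p K₀ hfd hur)
  rw [adjoin_le_iff]
  rintro x rfl
  exact root_mem_Kur p hm hζ

end Fermat.Agent.TW.B5.LG1.KurUnram
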