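/-
Programme TW (S56), brick B5-LG (local Galois toolkit), file 6 (helper1):
**(LG-U5)** `inertiaSurjective : IfaceLG.InertiaSurjective p` — the inertia group of `G_p` surjects
onto the inertia group of every finite normal level `E`.

Proof: `I₀ = Gal(K̄/K_ur)` is the set of inertial elements (`Kur.mem_fixingSubgroup_Kur_iff`);
let `H` be its image in `Gal(E/ℚ_p)`.  By the finite Galois correspondence it suffices to see that
`g|_E` fixes the fixed field of `H`; an element `y` of it is fixed by `I₀`, hence lies in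
`E ∩ K_ur ⊆ E ∩ ℚ_p(μ_m)` (infinite Galois correspondence), a finite unramified field on which `g` is
inertial; rigidity (`Kur.fixes_of_inertialOn_unram`) gives `g y = y`.
-/
import Mathlib
import Fermat.Agent.TW.B5.LG1.FmUnram

set_option autoImplicit false

namespace Fermat.Agent.TW.B5.LG1.U5

open Fermat.Agent.TW.B5.Iface Fermat.Agent.TW.B5.IfaceLG Fermat.Agent.TW.B5.LG1.Bridge
  Fermat.Agent.TW.B5.LG1.Kur Fermat.Agent.TW.B5.LG1.FmUnram

variable (p : ℕ) [Fact p.Prime]

/-- **(LG-U5)** Inertia surjects onto the inertia groups of the finite levels. -/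
theorem inertiaSurjective : InertiaSurjective p := by
  intro E hfd hE g hg
  have hnorm : Normal ℚ_[p] E := normal_of_isNormalField p hE
  have hgal : IsGalois ℚ_[p] E := isGalois_of_isNormalField p hE
  -- the image of inertia in `Gal(E/ℚ_p)`
  set H : Subgroup (E ≃ₐ[ℚ_[p]] E) := (Kur p).fixingSubgroup.map (res p E) with hH
  have hmem : res p E g ∈ H := by
    rw [← IntermediateField.fixingSubgroup_fixedField H, IntermediateField.mem_fixingSubgroup_iff]
    intro y hy
    rw [IntermediateField.mem_fixedField_iff] at hy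
    -- `y` is fixed by inertia
    have hyfix : ∀ τ : Gp p, IsInertial p τ → τ (y : Kbar p) = (y : Kbar p) := by
      intro τ hτ
      have h1 : res p E τ ∈ H :=
        Subgroup.mem_map_of_mem _ ((mem_fixingSubgroup_Kur_iff p τ).2 hτ)
      have h2 := hy (res p E τ) h1
      rw [← res_apply p E τ y, h2]
    obtain ⟨m, hm, hym⟩ := exists_mem_Fm_of_mem_Kur p (mem_Kur_of_fixed p hyfix)
    -- the finite unramified field `E ⊓ ℚ_p(μ_m)`
    have hfdN : FiniteDimensional ℚ_[p] (E ⊓ Fm p m : IntermediateField ℚ_[p] (Kbar p)) :=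
      Module.Finite.of_injective
        (IntermediateField.inclusion (inf_le_left : E ⊓ Fm p m ≤ E)).toLinearMap
        (IntermediateField.inclusion_injective (inf_le_left : E ⊓ Fm p m ≤ E))
    have hurN : IsUnramifiedField p (E ⊓ Fm p m) :=
      IsUnramifiedField.mono p inf_le_right (isUnramifiedField_Fm p hm)
    have hgN : IsInertialOn p (E ⊓ Fm p m) g := fun x hx hx1 => hg x hx.1 hx1
    have h3 := fixes_of_inertialOn_unram p (E ⊓ Fm p m) hurN g hgN (y : Kbar p) ⟨y.2, hym⟩
    apply Subtype.ext
    rw [res_apply, h3]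
  obtain ⟨τ, hτ, hτg⟩ := Subgroup.mem_map.1 hmem
  refine ⟨τ, (mem_fixingSubgroup_Kur_iff p τ).1 hτ, ?_⟩
  intro x hx
  have h1 := res_apply p E τ ⟨x, hx⟩
  have h2 := res_apply p E g ⟨x, hx⟩
  rw [hτg] at h1
  exact h1.symm.trans h2

end Fermat.Agent.TW.B5.LG1.U5
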