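/-
Programme TW (S56), brick B5-LG (local Galois toolkit), ASSEMBLY (helper1):
**`toolkit : IfaceLG.Toolkit p`** — all ten facts of the local Galois toolkit for `K̄ = PadicAlgCl p`,
`G_p = Gal(K̄/ℚ_p)`, unconditionally.

Sources: U1 `LG1.U1` (helper1), U2 `LG83U` (helper83), U3 `LG83B` (helper83),
U4 `LG1.GenFrob65` (helper65) from U5, U5 `LG1.U5` (helper1), T1–T5 `LG83T` (helper83;
independent copies of T1–T4 in `LGTame65` (helper65) and of T5 in `LGTame69` (helper69)).
-/
import Mathlib
import Fermat.Agent.TW.B5.LG1.U1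
import Fermat.Agent.TW.B5.LG1.U5
import Fermat.Agent.TW.B5.LG1.GenFrob65
import Fermat.Agent.TW.B5.LG83B
import Fermat.Agent.TW.B5.LG83U
import Fermat.Agent.TW.B5.LG83T

set_option autoImplicit false

namespace Fermat.Agent.TW.B5.LG1.Toolkit

open Fermat.Agent.TW.B5.Iface Fermat.Agent.TW.B5.IfaceLG

variable (p : ℕ) [Fact p.Prime]

/-- **The local Galois toolkit**, unconditionally. -/
theorem toolkit : IfaceLG.Toolkit p where
  inertiaFixedUnram := LG1.U1.inertiaFixedUnram p
  unramFixedByInertia := LG83U.unramFixedByInertia p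
  existsFrobLift := LG83B.existsFrobLift p
  generatedByFrob := LG1.GenFrob65.generatedByFrob_of p (LG1.U5.inertiaSurjective p)
  inertiaSurjective := LG1.U5.inertiaSurjective p
  frobConjWild := LG83T.frobConjWild p
  wildPPower := LG83T.wildPPower p
  commutatorWild := LG83T.commutatorWild p
  tameSymbolNorm := LG83T.tameSymbolNorm p
  cycloTameSymbol := LG83T.cycloTameSymbol p

end Fermat.Agent.TW.B5.LG1.Toolkit
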