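/-
Programme TW (S56), brick B5-LG (local Galois toolkit), file 5 (helper1):
**(LG-U1)** `inertiaFixedUnram : IfaceLG.InertiaFixedUnram p` — an element of `K̄` fixed by all of
inertia lies in a finite unramified extension of `ℚ_p` (namely some `ℚ_p(μ_m)`, `p ∤ m`).
-/
import Mathlib
import Fermat.Agent.TW.B5.LG1.FmUnram

set_option autoImplicit false

namespace Fermat.Agent.TW.B5.LG1.U1

open Fermat.Agent.TW.B5.Iface Fermat.Agent.TW.B5.IfaceLG Fermat.Agent.TW.B5.LG1.Kur
  Fermat.Agent.TW.B5.LG1.FmUnram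

variable (p : ℕ) [Fact p.Prime]

/-- **(LG-U1)** An element fixed by all of inertia lies in a finite unramified extension of `ℚ_p`. -/
theorem inertiaFixedUnram : InertiaFixedUnram p := by
  intro x hx
  obtain ⟨m, hm, hxm⟩ := exists_mem_Fm_of_mem_Kur p (mem_Kur_of_fixed p hx)
  exact ⟨Fm p m, finiteDimensional_Fm p m, isUnramifiedField_Fm p hm, hxm⟩

end Fermat.Agent.TW.B5.LG1.U1
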